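import Fermat.Agent.LT.T7.Level2

/-!
# Row LT, tower T7, node T7.L2.2 `SpecUpC` (sub-architect helper736): THE CUT (level 3), v0.1

OFF-MAIN.  Definitions, frozen Props, PROVED tops.  No hole, nothing assumed.
ADDITIVE: `T7/Level2.lean` (helper797@819237e8b, sha256 15516646) is imported as it is.

    specUpCS_of        : ExpUpC K K' → NonVanC K K' → SpecUpCS K K'
    traceWordsRegP_ofS : SupplyCS P K K' → SpecUpCS K K' → SpecDownC K K' → SpecIdC K K'
                           → TraceWordsRegP P K K'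

## 0. Base stability (audits helper880 #17463, helper288 #17502: ACCEPTED)

`IsL2Data` has no field which makes the BASE level `𝔑₀` stable under `σ` (only the levels
`𝔑_g = (𝔫 g) 𝒪_{K'}` are, by `IsCompData.aut`).  If `σ 𝔑₀ ≠ 𝔑₀` the operator `R(σ)` does not
preserve the invariant cusp functions `W₀ = IsWFn 𝔑₀` and only its compression acts on the class
spaces.  `BaseStable Dt := T5.AutPreserves Dt.s Dt.𝔑₀ Dt.R'.μ Dt.R'.r` (the same Prop as
`IsCompData.aut`, for the base level).  The supplier chooses `𝔑₀` as the extension of an ideal of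
`K`, so `SupplyCS` (= `SupplyC` + `BaseStable`) costs nothing more than `SupplyC`.

## 1. The two nodes

* **`ExpUpC`** (EXPANSION, for EVERY bad `g`; T2 + linear algebra, no arithmetic): a complete
  orthonormal sequence `e'` of cusp functions of level `𝔑_g`, atoms indexed by `ℕ`
  (`C j`, `b j`, `l j`, `y j`), the expansion of `specSide (φ' g X k m)`, and the finite set `J`
  of the indices of the class of `Φ`: `(e' j)_{j ∈ J}` is an orthonormal basis of the class
  space `V_Φ` of `Φ` at the BASE level (`IsClassBasisOn`), and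
  `∑_{j ∈ J} y j = c_g(Φ) · ∑_{j ∈ J} ⟨[U g U] R(σ) e'_j, e'_j⟩ = c_g(Φ) · tr([U g U] R(σ) | V_Φ)`.
* **`NonVanC`** (NON-VANISHING; multiplicity one in module form): there is a bad `g` with
  `tr([U g U] R(σ) | V_Φ) ≠ 0`, in the form: for EVERY finite orthonormal basis of the class space.
  NOTHING at the regular place is needed here: the block identities of `ExpUpC` hold for ALL
  `k ∈ ℤ`, `m ∈ ℕ` (they are linear algebra on the finite-dimensional class spaces; only the
  equality with `specSide` of an ADMISSIBLE function needs `m ≥ m₀`), so the total mass of the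
  class of `Φ` is read off at `k = m = 0`, and a non-zero finite sum has a non-zero fibre over
  some point `(b₀, l₀)`.

## 2. Proof of `ExpUpC` (sketch; cut of level 4 in `ExpUp.lean`)

Fix a bad `g`, `𝔑 = 𝔑_g ≤ 𝔑₀`, `W₀ = IsWFn 𝔑₀ r ℓ o`, `T = [U g U] R(σ)`.
(E1) eigenbasis (T2, class of T5 + ruling R3): a complete orthonormal sequence of the cusp
functions of level `𝔑`, each member either an eigenfunction in `W₀` (`IsEigFn`, unitary data) or
orthogonal to `W₀` (`proj_up`); the classes (eigen-data up to `AgreeOut S'`) are finite and span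
the class spaces.  (E2) operators: `[U g U]`, `Z_j`, `𝒰_j` (`j < ℓ`) preserve `W₀` and the
classes and commute with each other; `R(σ)` is unitary, preserves `W₀` and `W₀^⊥` (`BaseStable`),
maps the class of `C` onto the class of `σ C`, and `R(σ) 𝒰_j = 𝒰_{j+1} R(σ)`,
`R(σ) Z_j = Z_{j+1} R(σ)`.  (E3) for `j ∉ E`: `R(σ) e'_j ⊥ W₀`, so `R(φ') R(σ) e'_j = 0`
(`kill_up`); for `j ∈ E` with data `C`: `R(φ') R(σ) e'_j = X(σ C) c_g(σ C) [U g U] Z^k 𝒰^m R(σ) e'_j`
(`op_up`), orthogonal to `e'_j` unless `σ C` agrees with `C` outside `S'`.  (E4) on a `σ`-stable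
class: TW-ATOMS (closed: helper355 / helper161 / helper822) gives an orthonormal basis `q` of the
class, characters `χ_i` and coefficients `t_i ∈ {0, ⟨T q_i, q_i⟩}` with
`tr(T Z₀^k 𝒰₀^m) = ∑ t_i χ_i(Z₀)^k χ_i(𝒰₀)^m`; an atom with `t_i ≠ 0` has a joint eigenvector, so
`IsRegParam` by the Iwahori relations at `o 0` (asset helper822 `RegParam`).  (E5) change of the
orthonormal sequence inside the finite classes (block-unitary), regrouping of the absolutely
summable series by finite blocks; `Summable y`: `|y_i| ≤ |diagCoeff (φ' g [] 0 0) (q_i)|` and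
`T5.STFsigma`.

## 3. Proof of `NonVanC` (sketch)

`V_Φ ≠ 0` (it contains the form of `Φ`: `𝔑₀ ≤ Φ.level`, the orbit is prime to `Φ.level`).
`V_Φ` is a SIMPLE module under the algebra generated by the `[U g U]`, `g` bad, and the
Iwahori--Hecke operators along the orbit (multiplicity one in module form, helper963, from
`T2.SMO` / `T2.H941.MatchC`); the `[U g U]` span a subalgebra `A` (product of double cosets),
the Iwahori--Hecke algebras `H_j` at the `o j` commute with `A` and with each other, `R(σ)`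
moves `H_j` to `H_{j+1}`: `twisted_trace_formula616` (helper616, closed, Mathlib only) gives
`a ∈ A` with `tr(a R(σ)) ≠ 0`, hence one `g`.
-/

set_option autoImplicit false

open AutomorphicForm IsDedekindDomain NumberField MeasureTheory
open scoped ComplexConjugate

noncomputable section

namespace Fermat.Agent.LT.T7.SU736

open Fermat.Agent.LT.H556 Fermat.Agent.LT.H556.A0 Fermat.Agent.LT.T7

attribute [local instance] Fermat.Agent.LT.T5.instMeasurableSpaceG

/-! ## 1. Vocabulary -/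

section OneField

variable {K : Type} [Field K] [NumberField K]

/-- `(q j)_{j ∈ J}` is an ORTHONORMAL BASIS OF THE CLASS SPACE of the eigen-data `C₀` at the
level `𝔫`, Iwahori along the orbit `o 0, …, o (l-1)`: the members are invariant eigenfunctions
with data `C₀`, orthonormal for the inner product of the frame, and every invariant
eigenfunction with data `C₀` is a linear combination of them. -/
structure IsClassBasisOn (𝔫 : Ideal (𝓞 K)) (R : Frame5 K) (l : ℕ)
    (o : ℕ → HeightOneSpectrum (𝓞 K)) (C₀ : EigData K) (q : ℕ → G K → ℂ) (J : Finset ℕ) :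
    Prop where
  eig : ∀ j ∈ J, IsEigFn 𝔫 R.r l o (q j) C₀
  orth : ∀ i ∈ J, ∀ j ∈ J, i ≠ j → T5.innerD R.μ R.F (q i) (q j) = 0
  norm : ∀ j ∈ J, T5.innerD R.μ R.F (q j) (q j) = 1
  span : ∀ ψ : G K → ℂ, IsEigFn 𝔫 R.r l o ψ C₀ →
    ∃ a : ℕ → ℂ, ∀ x : G K, ψ x = ∑ j ∈ J, a j * q j x

/-- The twisted trace of `[U g U] R(σ)` in the family `(q j)_{j ∈ J}`:
`∑_{j ∈ J} ⟨[U g U] R(σ) q_j, q_j⟩`. -/
def twTrace (s : T5.AdelicAut K) (R : Frame5 K) (Hg : Finset (G K)) (q : ℕ → G K → ℂ)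
    (J : Finset ℕ) : ℂ :=
  ∑ j ∈ J, T5.innerD R.μ R.F (cosetOp Hg (T5.Rsig s (q j))) (q j)

end OneField

section TwoFields

variable {K K' : Type} [Field K] [NumberField K] [Field K'] [NumberField K'] [Algebra K K']

/-- **BASE STABILITY**: `σ` preserves the frame of `K'` at the BASE level `𝔑₀` (the Prop of
`IsCompData.aut` for `𝔑₀`).  TRUE when `𝔑₀` is the extension of an ideal of `K`. -/
def BaseStable (Dt : L2Data K K') : Prop :=
  T5.AutPreserves Dt.s Dt.𝔑₀ Dt.R'.μ Dt.R'.r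

end TwoFields

/-! ## 2. The nodes -/

section Nodes

variable (P : EKCond)
variable (K K' : Type) [Field K] [NumberField K] [Field K'] [NumberField K'] [Algebra K K']

/-- `SupplyC` with base stability. -/
def SupplyCS : Prop :=
  ∀ ℓ : ℕ, IsCycExt K K' ℓ → ℓ ≠ 2 → TotCplx K →
    ∀ Φ : HeckeEigensystem K' ℂ, A0.IsCuspAdelicSph0 K' Φ → ConstOnFibres K Φ → P K' Φ →
      ∃ Dt : L2Data K K', IsL2Data ℓ Φ Dt ∧ BaseStable Dt

/-- `SpecUpC` for base-stable data. -/
def SpecUpCS : Prop :=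
  ∀ ℓ : ℕ, IsCycExt K K' ℓ → ℓ ≠ 2 → TotCplx K →
    ∀ Φ : HeckeEigensystem K' ℂ, A0.IsCuspAdelicSph0 K' Φ → ConstOnFibres K Φ →
      ∀ Dt : L2Data K K', IsL2Data ℓ Φ Dt → BaseStable Dt →
      ∃ (g : G K') (e' : ℕ → G K' → ℂ) (ι' : Type) (C : ι' → EigData K') (b' l' : ι' → ℂ)
        (R : ℝ) (y : ι' → ℂ),
        Dt.IsBad g ∧
        T5.IsCuspONB (Dt.𝔑 g) T5.trivType Dt.R'.r Dt.R'.μ Dt.R'.F e' ∧
        Summable (fun j => ‖y j‖) ∧ (∀ j, (C j).IsUnitaryOut Dt.S') ∧
        (∀ j, IsRegParam R (b' j) (l' j)) ∧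
        (∀ X : List (Gen K'), (∀ x ∈ X, x.Out Dt.S') → ∀ (k : ℤ) (m : ℕ), Dt.m₀ g X ≤ m →
          specSide Dt.s Dt.R' e' (Dt.φ' g X k m)
            = ∑' j, wordEv X (C j) * y j * b' j ^ k * l' j ^ m) ∧
        ∃ b₀ l₀ : ℂ,
          (∑' j : {j : {j : ι' // b' j = b₀ ∧ l' j = l₀} //
              (C j.1).AgreeOut Dt.S' (eigOf Φ)}, y j.1.1) ≠ 0

/-- **NODE T7.L2.2.E = EXP-UP** (expansion upstairs, for every bad `g`).  See the header. -/
def ExpUpC : Prop :=
  ∀ ℓ : ℕ, IsCycExt K K' ℓ → ℓ ≠ 2 → TotCplx K →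
    ∀ Φ : HeckeEigensystem K' ℂ, A0.IsCuspAdelicSph0 K' Φ → ConstOnFibres K Φ →
      ∀ Dt : L2Data K K', IsL2Data ℓ Φ Dt → BaseStable Dt → ∀ g : G K', Dt.IsBad g →
      ∃ (e' : ℕ → G K' → ℂ) (C : ℕ → EigData K') (b l : ℕ → ℂ) (R : ℝ) (y : ℕ → ℂ)
        (J : Finset ℕ),
        T5.IsCuspONB (Dt.𝔑 g) T5.trivType Dt.R'.r Dt.R'.μ Dt.R'.F e' ∧
        Summable (fun j => ‖y j‖) ∧ (∀ j, (C j).IsUnitaryOut Dt.S') ∧
        (∀ j, IsRegParam R (b j) (l j)) ∧
        (∀ X : List (Gen K'), (∀ x ∈ X, x.Out Dt.S') → ∀ (k : ℤ) (m : ℕ), Dt.m₀ g X ≤ m →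
          specSide Dt.s Dt.R' e' (Dt.φ' g X k m)
            = ∑' j, wordEv X (C j) * y j * b j ^ k * l j ^ m) ∧
        (∀ j, (C j).AgreeOut Dt.S' (eigOf Φ) → y j ≠ 0 → j ∈ J) ∧
        (∀ j ∈ J, (C j).AgreeOut Dt.S' (eigOf Φ)) ∧
        IsClassBasisOn Dt.𝔑₀ Dt.R' ℓ Dt.o (eigOf Φ) e' J ∧
        ∀ Hg : Finset (G K'), IsDblCosetSystem Dt.𝔑₀ g Hg →
          ∑ j ∈ J, y j = Dt.c g (eigOf Φ) * twTrace Dt.s Dt.R' Hg e' J

/-- **NODE T7.L2.2.N = NON-VANISHING** (multiplicity one in module form).  There is a bad `g`,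
with a system of representatives of `U(𝔑₀) g U(𝔑₀) / U(𝔑₀)`, such that the twisted trace of
`[U g U] R(σ)` on the class space of `Φ` at the base level is not zero (in every finite
orthonormal basis of the class space).  See the header. -/
def NonVanC : Prop :=
  ∀ ℓ : ℕ, IsCycExt K K' ℓ → ℓ ≠ 2 → TotCplx K →
    ∀ Φ : HeckeEigensystem K' ℂ, A0.IsCuspAdelicSph0 K' Φ → ConstOnFibres K Φ →
      ∀ Dt : L2Data K K', IsL2Data ℓ Φ Dt → BaseStable Dt →
      ∃ (g : G K') (Hg : Finset (G K')), Dt.IsBad g ∧ IsDblCosetSystem Dt.𝔑₀ g Hg ∧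
        ∀ (q : ℕ → G K' → ℂ) (J : Finset ℕ),
          IsClassBasisOn Dt.𝔑₀ Dt.R' ℓ Dt.o (eigOf Φ) q J → twTrace Dt.s Dt.R' Hg q J ≠ 0

end Nodes

/-! ## 3. The tops (PROVED) -/

section Tops

variable {P : EKCond}
variable {K K' : Type} [Field K] [NumberField K] [Field K'] [NumberField K'] [Algebra K K']

/-- A non-zero finite sum has a non-zero fibre. -/
theorem exists_fibre_ne_zero736 {α : Type} [DecidableEq α] (J : Finset ℕ) (y : ℕ → ℂ)
    (p : ℕ → α) (h : ∑ j ∈ J, y j ≠ 0) : ∃ a : α, ∑ j ∈ J with p j = a, y j ≠ 0 := by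
  by_contra hcon
  apply h
  rw [← Finset.sum_fiberwise_of_maps_to (g := p) (t := J.image p)
    (fun j hj => Finset.mem_image_of_mem p hj)]
  refine Finset.sum_eq_zero fun a _ => ?_
  by_contra ha
  exact hcon ⟨a, ha⟩

/-- The sum over the nested subtype of the node is a finite sum over `J`. -/
theorem tsum_nested_eq_sum736 (J : Finset ℕ) (y : ℕ → ℂ) (Pr Q : ℕ → Prop)
    [DecidablePred Pr] [DecidablePred Q]
    (hJ : ∀ j, Q j → y j ≠ 0 → j ∈ J) (hQ : ∀ j ∈ J, Q j) :
    (∑' j : {j : {j : ℕ // Pr j} // Q j.1}, y j.1.1) = ∑ j ∈ J with Pr j, y j := by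
  classical
  have hinj : Function.Injective
      (fun j : {j : {j : ℕ // Pr j} // Q j.1} => (j.1.1 : ℕ)) := by
    intro a b hab
    exact Subtype.ext (Subtype.ext hab)
  have hsupp : Function.support (fun n : ℕ => if Pr n ∧ Q n then y n else 0)
      ⊆ Set.range (fun j : {j : {j : ℕ // Pr j} // Q j.1} => (j.1.1 : ℕ)) := by
    intro n hn
    rw [Function.mem_support] at hn
    by_cases hpq : Pr n ∧ Q n
    · exact ⟨⟨⟨n, hpq.1⟩, hpq.2⟩, rfl⟩
    · rw [if_neg hpq] at hn
      exact absurd rfl hn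
  have h1 := hinj.tsum_eq hsupp
  have h2 : (fun j : {j : {j : ℕ // Pr j} // Q j.1} =>
      (fun n : ℕ => if Pr n ∧ Q n then y n else 0) (j.1.1)) = fun j => y j.1.1 := by
    funext j
    have : Pr j.1.1 ∧ Q j.1.1 := ⟨j.1.2, j.2⟩
    simp only [this, and_self, if_true]
  rw [h2] at h1
  rw [h1, tsum_eq_sum (s := J.filter fun j => Pr j)]
  · refine Finset.sum_congr rfl fun j hj => ?_
    rw [Finset.mem_filter] at hj
    rw [if_pos ⟨hj.2, hQ j hj.1⟩]
  · intro n hn
    by_cases hpq : Pr n ∧ Q n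
    · rw [if_pos hpq]
      by_contra hy
      exact hn (Finset.mem_filter.2 ⟨hJ n hpq.2 hy, hpq.1⟩)
    · rw [if_neg hpq]

/-- **THE TOP OF THE NODE `SpecUpC`** (for base-stable data): the expansion for every bad `g`
and the non-vanishing of the twisted trace on the class of `Φ` for one bad `g`. -/
theorem specUpCS_of (hE : ExpUpC K K') (hN : NonVanC K K') : SpecUpCS K K' := by
  classical
  intro ℓ hcyc hℓ hcplx Φ hΦ hconst Dt hDt hst
  obtain ⟨g, Hg, hg, hHg, hne⟩ := hN ℓ hcyc hℓ hcplx Φ hΦ hconst Dt hDt hst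
  obtain ⟨e', C, b, l, R, y, J, hONB, hy, hU, hp, hexp, hJ, hJ', hbasis, htr⟩ :=
    hE ℓ hcyc hℓ hcplx Φ hΦ hconst Dt hDt hst g hg
  refine ⟨g, e', ℕ, C, b, l, R, y, hg, hONB, hy, hU, hp, hexp, ?_⟩
  -- the total mass of the class of `Φ` is not zero
  have hc : Dt.c g (eigOf Φ) ≠ 0 :=
    hDt.base_ne g hg (eigOf Φ) ⟨fun _ _ => ⟨rfl, rfl⟩, fun _ _ _ => rfl⟩
  have hsum : ∑ j ∈ J, y j ≠ 0 := by
    rw [htr Hg hHg]
    exact mul_ne_zero hc (hne e' J hbasis)
  obtain ⟨⟨b₀, l₀⟩, hfib⟩ := exists_fibre_ne_zero736 J y (fun j => (b j, l j)) hsum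
  refine ⟨b₀, l₀, ?_⟩
  rw [tsum_nested_eq_sum736 J y (fun j => b j = b₀ ∧ l j = l₀)
    (fun j => (C j).AgreeOut Dt.S' (eigOf Φ)) hJ hJ']
  have hfilter : (J.filter fun j => b j = b₀ ∧ l j = l₀)
      = J.filter fun j => (b j, l j) = (b₀, l₀) := by
    refine Finset.filter_congr fun j _ => ?_
    rw [Prod.mk.injEq]
  rw [hfilter]
  exact hfib

/-- **THE ASSEMBLY OF LEVEL 2 for base-stable data** (the proof of `T7.traceWordsRegP_of` with
`BaseStable` carried along). -/
theorem traceWordsRegP_ofS (hS : SupplyCS P K K') (hU : SpecUpCS K K') (hD : SpecDownC K K')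
    (hI : SpecIdC K K') : TraceWordsRegP P K K' := by
  intro ℓ hcyc hℓ hcplx Φ hΦ hconst hP
  obtain ⟨Dt, hDt, hst⟩ := hS ℓ hcyc hℓ hcplx Φ hΦ hconst hP
  obtain ⟨g, e', ι', C, b', l', R', y, hg, he', hy, hUB, hp', hexp', hne⟩ :=
    hU ℓ hcyc hℓ hcplx Φ hΦ hconst Dt hDt hst
  obtain ⟨e, ι, c, Ch, b, l, R, x, he, hx, hUA, hbc, hp, hexp, hreal⟩ :=
    hD ℓ hcyc hℓ hcplx Φ hΦ hconst Dt hDt g hg
  refine ⟨Dt.S', ι, ι', c, Ch, C, b, l, b', l', max R R', x, y, hx, hy, hUA, hUB, hbc,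
    fun i => isRegParam_mono (le_max_left _ _) (hp i),
    fun j => isRegParam_mono (le_max_right _ _) (hp' j), ?_, hne, hreal⟩
  intro X hX
  refine ⟨Dt.m₀ g X, fun m hm k => ?_⟩
  have hid := (hI (Dt.comp g) (hDt.comp g hg) (Dt.φ' g X k m) (Dt.f g X k m)
    (isAdm5_of_ekProd (hDt.ekprod_up g X k m hg hX) (hDt.reg_up g X k m hg hX hm))
    (isAdm5_of_ekProd (hDt.ekprod_down g X k m hg hX) (hDt.reg_down g X k m hg hX hm))
    (hDt.matched g X k m hg hX hm) e' e he' he).2.2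
  rw [← hexp X hX k m hm, ← hexp' X hX k m hm]
  exact hid.symm

/-- `SpecUpCS` is what `SpecUpC` gives for base-stable data. -/
theorem specUpCS_of_specUpC (h : SpecUpC K K') : SpecUpCS K K' :=
  fun ℓ hcyc hℓ hcplx Φ hΦ hconst Dt hDt _ => h ℓ hcyc hℓ hcplx Φ hΦ hconst Dt hDt

/-- `SupplyC` from `SupplyCS`. -/
theorem supplyC_of_supplyCS (h : SupplyCS P K K') : SupplyC P K K' :=
  fun ℓ hcyc hℓ hcplx Φ hΦ hconst hP =>
    let ⟨Dt, hDt, _⟩ := h ℓ hcyc hℓ hcplx Φ hΦ hconst hP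
    ⟨Dt, hDt⟩

end Tops

/-! ## Appendix (v0.1, additive): the equation lemmas of the definitions are realised HERE

Same device as the appendix of `T7/Comparison.lean` v0.1 (helper797): the equation lemmas of a
definition are generated in the module which first unfolds it; citing them here generates them
once, upstream of every user.  No statement of this file is changed. -/

theorem eqns_realised_specUp736 : True := by
  have _a1 := @twTrace.eq_1
  have _a2 := @twTrace.eq_def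
  have _a3 := @twTrace.eq_unfold
  have _b1 := @BaseStable.eq_1
  have _b2 := @BaseStable.eq_def
  have _b3 := @BaseStable.eq_unfold
  have _c1 := @SupplyCS.eq_1
  have _c2 := @SupplyCS.eq_def
  have _c3 := @SupplyCS.eq_unfold
  have _d1 := @SpecUpCS.eq_1
  have _d2 := @SpecUpCS.eq_def
  have _d3 := @SpecUpCS.eq_unfold
  have _e1 := @ExpUpC.eq_1
  have _e2 := @ExpUpC.eq_def
  have _e3 := @ExpUpC.eq_unfold
  have _f1 := @NonVanC.eq_1
  have _f2 := @NonVanC.eq_def
  have _f3 := @NonVanC.eq_unfold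
  trivial

end Fermat.Agent.LT.T7.SU736

end
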