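import Fermat.Agent.LT.T7.H736.SpecUp

/-!
# Row LT, tower T7, node T7.L2.2.E `ExpUpC` (sub-architect helper736): THE CUT (level 4), v0.1

OFF-MAIN.  Definitions, frozen Props, PROVED top.  No hole, nothing assumed.  ADDITIVE.

    expUpC_of : StfUpC K K' → UpBasisC K K' → ExpUpC K K'

## Why BLOCKS (difference with the cut of `SpecDownC`, helper534)

Downstairs the operators `B, Z, 𝒰` commute, a Schur basis makes all of them triangular and the
diagonal coefficient of `B Z^k 𝒰^m` at EVERY member of the basis is `x b^k l^m`.  Upstairs the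
operator is `T Z^k 𝒰^m` with `T = [U g U] R(σ)`, and `R(σ)` does not commute with `Z = Z_{o 0}`,
`𝒰 = 𝒰_{o 0}` (it moves them along the orbit).  Only the TRACE over a class has the form
`∑ t_i b_i^k l_i^m` (TW-ATOMS: helper355 row 2066, helper161 row 2051, helper822), not the single
diagonal coefficients.  So the adapted sequence carries a partition of its `W₀`-part into FINITE
BLOCKS (the classes) and the identity is stated block by block, for ALL `k ∈ ℤ`, `m ∈ ℕ`
(no regularity: it is linear algebra).  The top regroups the two absolutely summable series.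

## The node `UpBasisC` (cut of level 5: `UpBasis.lean`)

`IsUpBasis`: a complete orthonormal sequence `e'` of cusp functions of level `𝔑_g`, a set `I` of
indices (the `W₀`-part), finite blocks `blk i ⊆ I`, atoms `(C j, y j, b j, l j)`, and the finite
set `J ⊆ I` of the class of `Φ`, with
* `zero_out` : for `i ∉ I` the diagonal coefficient of every member of the family vanishes
  (`R(σ)` preserves `W₀^⊥` by `BaseStable`; `kill_up`);
* `block` : `∑_{j ∈ blk i} ⟨R(φ' g X k m) R(σ) e'_j, e'_j⟩ = ∑_{j ∈ blk i} X(C_j) y_j b_j^k l_j^m`;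
* `summ` : `∑ ‖y_j‖ < ∞` (`|y_j| ≤ |⟨R(φ' g [] 0 0) R(σ) q_j, q_j⟩|` in the TW-ATOMS basis;
  `T5.STFsigma`);
* `cls…` : the class of `Φ` is the block `J`, `(e' j)_{j ∈ J}` is an orthonormal basis of the
  class space at the base level, and `∑_{j ∈ J} y_j = c_g(Φ) tr([U g U] R(σ) | V_Φ)`.
-/

set_option autoImplicit false

open AutomorphicForm IsDedekindDomain NumberField MeasureTheory
open scoped ComplexConjugate

noncomputable section

namespace Fermat.Agent.LT.T7.SU736

open Fermat.Agent.LT.H556 Fermat.Agent.LT.H556.A0 Fermat.Agent.LT.T7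

attribute [local instance] Fermat.Agent.LT.T5.instMeasurableSpaceG

/-! ## 1. The adapted sequence with blocks -/

section Defs

variable {K K' : Type} [Field K] [NumberField K] [Field K'] [NumberField K'] [Algebra K K']

/-- **THE ADAPTED SEQUENCE WITH BLOCKS** for the bad element `g`.  See the header. -/
structure IsUpBasis (Dt : L2Data K K') (ℓ : ℕ) (Φ : HeckeEigensystem K' ℂ) (g : G K')
    (e' : ℕ → G K' → ℂ) (I : Set ℕ) (blk : ℕ → Finset ℕ) (C : ℕ → EigData K')
    (b l y : ℕ → ℂ) (R : ℝ) (J : Finset ℕ) : Prop where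
  onb : T5.IsCuspONB (Dt.𝔑 g) T5.trivType Dt.R'.r Dt.R'.μ Dt.R'.F e'
  zero_out : ∀ i, i ∉ I → ∀ (X : List (Gen K')) (k : ℤ) (m : ℕ), (∀ x ∈ X, x.Out Dt.S') →
    T5.diagCoeff Dt.s Dt.R'.μ Dt.R'.F (Dt.φ' g X k m) (e' i) = 0
  y_out : ∀ i, i ∉ I → y i = 0
  mem_blk : ∀ i, i ∈ I → i ∈ blk i
  blk_sub : ∀ i, i ∈ I → ∀ j ∈ blk i, j ∈ I ∧ blk j = blk i
  block : ∀ i, i ∈ I → ∀ (X : List (Gen K')) (k : ℤ) (m : ℕ), (∀ x ∈ X, x.Out Dt.S') →
    ∑ j ∈ blk i, T5.diagCoeff Dt.s Dt.R'.μ Dt.R'.F (Dt.φ' g X k m) (e' j)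
      = ∑ j ∈ blk i, wordEv X (C j) * y j * b j ^ k * l j ^ m
  summ : Summable fun j => ‖y j‖
  unit : ∀ j, (C j).IsUnitaryOut Dt.S'
  reg : ∀ j, IsRegParam R (b j) (l j)
  cls_mem : ∀ j, (C j).AgreeOut Dt.S' (eigOf Φ) → y j ≠ 0 → j ∈ J
  cls_agree : ∀ j ∈ J, (C j).AgreeOut Dt.S' (eigOf Φ)
  cls_basis : IsClassBasisOn Dt.𝔑₀ Dt.R' ℓ Dt.o (eigOf Φ) e' J
  cls_trace : ∀ Hg : Finset (G K'), IsDblCosetSystem Dt.𝔑₀ g Hg →
    ∑ j ∈ J, y j = Dt.c g (eigOf Φ) * twTrace Dt.s Dt.R' Hg e' J

end Defs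

section Leaves

variable (K K' : Type) [Field K] [NumberField K] [Field K'] [NumberField K'] [Algebra K K']

/-- **E.1 (tower T5, closed).**  The twisted trace identity of T5 for the data of the
comparison: only its first conclusion (summability of the diagonal coefficients) is used. -/
def StfUpC : Prop :=
  ∀ D : CompData K K', IsCompData D → T5.STFsigma D.s D.𝔑 T5.trivType

/-- **E.2 = NODE UP-BASIS.**  The adapted sequence with blocks exists for every bad `g`. -/
def UpBasisC : Prop :=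
  ∀ ℓ : ℕ, IsCycExt K K' ℓ → ℓ ≠ 2 → TotCplx K →
    ∀ Φ : HeckeEigensystem K' ℂ, A0.IsCuspAdelicSph0 K' Φ → ConstOnFibres K Φ →
      ∀ Dt : L2Data K K', IsL2Data ℓ Φ Dt → BaseStable Dt → ∀ g : G K', Dt.IsBad g →
        ∃ (e' : ℕ → G K' → ℂ) (I : Set ℕ) (blk : ℕ → Finset ℕ) (C : ℕ → EigData K')
          (b l y : ℕ → ℂ) (R : ℝ) (J : Finset ℕ), IsUpBasis Dt ℓ Φ g e' I blk C b l y R J

end Leaves

/-! ## 2. Regrouping by finite blocks (Mathlib only) -/

section BlockSum

/-- Two absolutely summable series which vanish outside `I` and have the same sums over the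
finite blocks of a partition of `I` have the same sum. -/
theorem tsum_eq_of_blocks736 (f f' : ℕ → ℂ) (hf : Summable fun i => ‖f i‖)
    (hf' : Summable fun i => ‖f' i‖) (I : Set ℕ) (blk : ℕ → Finset ℕ)
    (hmem : ∀ i, i ∈ I → i ∈ blk i)
    (hsub : ∀ i, i ∈ I → ∀ j ∈ blk i, j ∈ I ∧ blk j = blk i)
    (hout : ∀ i, i ∉ I → f i = 0 ∧ f' i = 0)
    (hblk : ∀ i, i ∈ I → ∑ j ∈ blk i, f j = ∑ j ∈ blk i, f' j) :
    ∑' i, f i = ∑' i, f' i := by
  classical
  -- the difference
  set h : ℕ → ℂ := fun i => f i - f' i with hh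
  have hsum : Summable h := (hf.of_norm).sub (hf'.of_norm)
  suffices h0 : ∑' i, h i = 0 by
    have := (hf.of_norm).tsum_sub (hf'.of_norm)
    rw [show (fun i => f i - f' i) = h from rfl, h0] at this
    exact (sub_eq_zero.1 this.symm)
  -- the blocks, singletons outside `I`
  set B : ℕ → Finset ℕ := fun i => if i ∈ I then blk i else {i} with hB
  have hBmem : ∀ i, i ∈ B i := by
    intro i
    by_cases hi : i ∈ I
    · simp only [hB, if_pos hi]
      exact hmem i hi
    · simp only [hB, if_neg hi]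
      exact Finset.mem_singleton_self i
  have hBeq : ∀ i, ∀ x ∈ B i, B x = B i := by
    intro i x hx
    by_cases hi : i ∈ I
    · simp only [hB, if_pos hi] at hx ⊢
      obtain ⟨hxI, hxb⟩ := hsub i hi x hx
      rw [if_pos hxI, hxb]
    · simp only [hB, if_neg hi] at hx ⊢
      rw [Finset.mem_singleton] at hx
      subst hx
      rw [if_neg hi]
  have hBsum : ∀ i, ∑ x ∈ B i, h x = 0 := by
    intro i
    by_cases hi : i ∈ I
    · simp only [hB, if_pos hi, hh]
      rw [Finset.sum_sub_distrib, hblk i hi, sub_self]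
    · simp only [hB, if_neg hi, hh, Finset.sum_singleton]
      rw [(hout i hi).1, (hout i hi).2, sub_zero]
  -- the exhausting sequence of unions of blocks
  set S : ℕ → Finset ℕ := fun n => ((Finset.range n).image B).biUnion id with hS
  have hSsum : ∀ n, ∑ x ∈ S n, h x = 0 := by
    intro n
    rw [hS, Finset.sum_biUnion]
    · refine Finset.sum_eq_zero fun T hT => ?_
      rw [Finset.mem_image] at hT
      obtain ⟨i, -, rfl⟩ := hT
      exact hBsum i
    · intro T hT T' hT' hne
      rw [Finset.mem_coe, Finset.mem_image] at hT hT'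
      obtain ⟨i, -, rfl⟩ := hT
      obtain ⟨j, -, rfl⟩ := hT'
      show Disjoint (id (B i)) (id (B j))
      rw [id, id, Finset.disjoint_left]
      intro x hxi hxj
      exact hne ((hBeq i x hxi).symm.trans (hBeq j x hxj))
  have hSge : ∀ n, Finset.range n ⊆ S n := by
    intro n i hi
    rw [hS, Finset.mem_biUnion]
    exact ⟨B i, Finset.mem_image_of_mem B hi, hBmem i⟩
  have htend : Filter.Tendsto S Filter.atTop Filter.atTop := by
    rw [Filter.tendsto_atTop]
    intro s
    obtain ⟨n, hn⟩ := s.exists_nat_subset_range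
    rw [Filter.eventually_atTop]
    refine ⟨n, fun m hm => ?_⟩
    exact (hn.trans (Finset.range_mono hm)).trans (hSge m)
  have hlim := (hsum.hasSum.comp htend)
  have hconst : (fun s : Finset ℕ => ∑ b ∈ s, h b) ∘ S = fun _ => (0 : ℂ) := by
    funext n
    exact hSsum n
  rw [hconst] at hlim
  exact (tendsto_nhds_unique hlim tendsto_const_nhds)

end BlockSum

/-! ## 3. The top -/

section Top

variable {K K' : Type} [Field K] [NumberField K] [Field K'] [NumberField K'] [Algebra K K']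

/-- The atoms are absolutely summable. -/
theorem summable_atoms736 {S : Finset (HeightOneSpectrum (𝓞 K'))} (C : ℕ → EigData K')
    (b l y : ℕ → ℂ) (R : ℝ) (hy : Summable fun j => ‖y j‖) (hU : ∀ j, (C j).IsUnitaryOut S)
    (hp : ∀ j, IsRegParam R (b j) (l j)) (X : List (Gen K')) (hX : ∀ x ∈ X, x.Out S) (k : ℤ)
    (m : ℕ) : Summable fun j => ‖wordEv X (C j) * y j * b j ^ k * l j ^ m‖ := by
  refine Summable.of_nonneg_of_le (fun j => norm_nonneg _) (fun j => ?_)
    ((hy.mul_left (wordBd X)).mul_right (R ^ m))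
  have h1 : ‖wordEv X (C j)‖ ≤ wordBd X := norm_wordEv_le (hU j) X hX
  have h2 : ‖b j ^ k‖ = 1 := by rw [norm_zpow, (hp j).1, one_zpow]
  have h3 : ‖l j ^ m‖ ≤ R ^ m := by
    rw [norm_pow]
    exact pow_le_pow_left₀ (norm_nonneg _) (hp j).2.1 m
  have hR : 0 ≤ R ^ m := le_trans (norm_nonneg _) h3
  rw [norm_mul, norm_mul, norm_mul, h2, mul_one]
  exact mul_le_mul (mul_le_mul_of_nonneg_right h1 (norm_nonneg _)) h3 (norm_nonneg _)
    (mul_nonneg (wordBd_nonneg X) (norm_nonneg _))

/-- **THE TOP OF THE NODE `ExpUpC`.** -/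
theorem expUpC_of (hStf : StfUpC K K') (hB : UpBasisC K K') : ExpUpC K K' := by
  classical
  intro ℓ hcyc hℓ hcplx Φ hΦ hconst Dt hDt hst g hg
  obtain ⟨e', I, blk, C, b, l, y, R, J, h⟩ := hB ℓ hcyc hℓ hcplx Φ hΦ hconst Dt hDt hst g hg
  refine ⟨e', C, b, l, R, y, J, h.onb, h.summ, h.unit, h.reg, ?_, h.cls_mem, h.cls_agree,
    h.cls_basis, h.cls_trace⟩
  intro X hX k m _
  have hcomp : IsCompData (Dt.comp g) := hDt.comp g hg
  -- summability of the diagonal coefficients
  have hs1 : Summable fun i =>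
      ‖T5.diagCoeff Dt.s Dt.R'.μ Dt.R'.F (Dt.φ' g X k m) (e' i)‖ := by
    obtain ⟨-, φ₁, φ₂, t₁, t₂, k₁, k₁', k₂, k₂', hconv⟩ := hDt.ekprod_up g X k m hg hX
    rw [hconv]
    exact ((hStf (Dt.comp g) hcomp Dt.R'.μ Dt.R'.F Dt.R'.r hcomp.frame'.frame
      hcomp.frame'.ray hcomp.aut e' h.onb φ₁ φ₂ t₁ t₂ k₁ k₁' k₂ k₂').1).norm
  have hs2 := summable_atoms736 C b l y R h.summ h.unit h.reg X hX k m
  show (∑' i, T5.diagCoeff Dt.s Dt.R'.μ Dt.R'.F (Dt.φ' g X k m) (e' i))
    = ∑' j, wordEv X (C j) * y j * b j ^ k * l j ^ m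
  refine tsum_eq_of_blocks736 _ _ hs1 hs2 I blk h.mem_blk h.blk_sub (fun i hi => ⟨?_, ?_⟩)
    (fun i hi => h.block i hi X k m hX)
  · exact h.zero_out i hi X k m hX
  · rw [h.y_out i hi, mul_zero, zero_mul, zero_mul]

end Top

/-! ## Appendix (v0.1, additive): the equation lemmas of the definitions are realised HERE

Same device as the appendix of `T7/Comparison.lean` v0.1 (helper797): the equation lemmas of a
definition are generated in the module which first unfolds it; citing them here generates them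
once, upstream of every user.  No statement of this file is changed. -/

theorem eqns_realised_expUp736 : True := by
  have _a1 := @StfUpC.eq_1
  have _a2 := @StfUpC.eq_def
  have _a3 := @StfUpC.eq_unfold
  have _b1 := @UpBasisC.eq_1
  have _b2 := @UpBasisC.eq_def
  have _b3 := @UpBasisC.eq_unfold
  trivial

end Fermat.Agent.LT.T7.SU736

end
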