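import Fermat.Agent.LT.T7.H736.SpecUp
import Fermat.Agent.LT.T7.H616.RegTrace3

/-!
# Row LT, tower T7, node T7.L2.2.N `NonVanC` (sub-architect helper736): THE CUT (level 4), v0.1

OFF-MAIN.  Definitions, frozen Prop, PROVED top.  No hole, nothing assumed.  ADDITIVE.

    nonVanC_of : ClassModelC K K' → NonVanC K K'

The abstract engine is CLOSED: `H616.exists_gen_twisted_trace_ne_zero616` (helper616,
`T7/H616/RegTrace3.lean`, Mathlib + main `S29/H872/Burnside`): for a non-zero finite-dimensional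
space `V`, sets of operators `𝒢`, `ℐ 0, …, ℐ (l-1)` and an invertible `S` with the relations
below, there is ONE `T ∈ 𝒢` with `tr(T S) ≠ 0`.

## The node `ClassModelC` (deputy sub-architect: helper616; simplicity: helper963; Iwahori
## kit: helper83)

For base-stable data there is a MODEL `(V, 𝒢, ℐ, S, Sinv)` of the class space of `Φ` at the base
level:
* `V` ≅ the span of the invariant eigenfunctions with data `eigOf Φ` (`IsEigFn 𝔑₀ r ℓ o ψ
  (eigOf Φ)`): finite-dimensional (T2: Hilbert--Schmidt bound) and NON-ZERO (the form of `Φ`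
  lies in it: `𝔑₀ ≤ Φ.level`, the orbit is prime to `Φ.level`);
* `𝒢` = the operators `cosetOp Hg` on `V`, `g` bad, `IsDblCosetSystem 𝔑₀ g Hg`
  (`1 ∈ 𝒢`: `g = 1`, `Hg = {1}`; `hmul`: a product of two double coset operators is a
  combination of double coset operators of bad elements);
* `ℐ j` = the operators of the Iwahori--Hecke algebra at `o j` on `V` (sums of right translates
  over `I x I / I`, `x` supported at `o j`);
* `S = R(σ)`, `Sinv = R(σ)⁻¹` on `V` (`BaseStable`, `IsL2Data.const`: the class of `Φ` is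
  `σ`-stable), `S ^ ℓ = 1`, `R(σ)⁻¹ R(h) R(σ) = R(σ⁻¹ h)` moves `ℐ (j+1)` to `ℐ j`;
* `hirr` = MULTIPLICITY ONE IN MODULE FORM (helper963, `LT/H963/Cyclic.lean`, from
  `T2.H941.MatchC`): `V` is a simple module under `𝒢` and the `ℐ j`;
* `dict`: every `T ∈ 𝒢` is the model of `cosetOp Hg` for a bad `g`, and for EVERY finite
  orthonormal basis `(q j)_{j ∈ J}` of the class space the sum of the diagonal coefficients
  `∑_{j ∈ J} ⟨[U g U] R(σ) q_j, q_j⟩` is the trace of `T S` on `V`.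
-/

set_option autoImplicit false

open AutomorphicForm IsDedekindDomain NumberField MeasureTheory
open scoped ComplexConjugate

noncomputable section

namespace Fermat.Agent.LT.T7.SU736

open Fermat.Agent.LT.H556 Fermat.Agent.LT.H556.A0 Fermat.Agent.LT.T7

attribute [local instance] Fermat.Agent.LT.T5.instMeasurableSpaceG

section Defs

variable {K K' : Type} [Field K] [NumberField K] [Field K'] [NumberField K'] [Algebra K K']

/-- **THE MODEL OF THE CLASS SPACE OF `Φ`**: the hypotheses of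
`H616.exists_gen_twisted_trace_ne_zero616` and the dictionary with the twisted traces of the
double coset operators of the bad elements.  See the header. -/
structure IsClassModel (Dt : L2Data K K') (ℓ : ℕ) (Φ : HeckeEigensystem K' ℂ)
    (V : Type) [AddCommGroup V] [Module ℂ V]
    (𝒢 : Set (Module.End ℂ V)) (ℐ : ℕ → Set (Module.End ℂ V)) (S Sinv : Module.End ℂ V) :
    Prop where
  hS : S * Sinv = 1
  hS' : Sinv * S = 1
  hGI : ∀ j < ℓ, ∀ g ∈ 𝒢, ∀ h ∈ ℐ j, g * h = h * g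
  hII : ∀ i < ℓ, ∀ j < ℓ, i ≠ j → ∀ h ∈ ℐ i, ∀ h' ∈ ℐ j, h * h' = h' * h
  hdown : ∀ j, j + 1 < ℓ → ∀ h ∈ ℐ (j + 1), Sinv * h * S ∈ Algebra.adjoin ℂ (ℐ j)
  hwrap : ∀ h ∈ ℐ 0, Sinv * h * S ∈ Algebra.adjoin ℂ (ℐ (ℓ - 1))
  hcent : ∀ h ∈ ℐ 0, S ^ ℓ * h = h * S ^ ℓ
  hirr : ∀ W : Submodule ℂ V, (∀ g ∈ 𝒢, W ≤ W.comap g) →
    (∀ j < ℓ, ∀ h ∈ ℐ j, W ≤ W.comap h) → W = ⊥ ∨ W = ⊤
  h1 : (1 : Module.End ℂ V) ∈ Submodule.span ℂ 𝒢
  hmul : ∀ x ∈ 𝒢, ∀ y ∈ 𝒢, x * y ∈ Submodule.span ℂ 𝒢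
  dict : ∀ T ∈ 𝒢, ∃ (g : G K') (Hg : Finset (G K')), Dt.IsBad g ∧
    IsDblCosetSystem Dt.𝔑₀ g Hg ∧
    ∀ (q : ℕ → G K' → ℂ) (J : Finset ℕ),
      IsClassBasisOn Dt.𝔑₀ Dt.R' ℓ Dt.o (eigOf Φ) q J →
        twTrace Dt.s Dt.R' Hg q J = LinearMap.trace ℂ V (T * S)

end Defs

section Node

variable (K K' : Type) [Field K] [NumberField K] [Field K'] [NumberField K'] [Algebra K K']

/-- **NODE T7.L2.2.N.1 = CLASS-MODEL.**  The class space of `Φ` at the base level has a model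
as in `IsClassModel`.  See the header. -/
def ClassModelC : Prop :=
  ∀ ℓ : ℕ, IsCycExt K K' ℓ → ℓ ≠ 2 → TotCplx K →
    ∀ Φ : HeckeEigensystem K' ℂ, A0.IsCuspAdelicSph0 K' Φ → ConstOnFibres K Φ →
      ∀ Dt : L2Data K K', IsL2Data ℓ Φ Dt → BaseStable Dt →
        ∃ (V : Type) (_ : AddCommGroup V) (_ : Module ℂ V) (_ : FiniteDimensional ℂ V)
          (_ : Nontrivial V) (𝒢 : Set (Module.End ℂ V)) (ℐ : ℕ → Set (Module.End ℂ V))
          (S Sinv : Module.End ℂ V), IsClassModel Dt ℓ Φ V 𝒢 ℐ S Sinv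

end Node

section Top

variable {K K' : Type} [Field K] [NumberField K] [Field K'] [NumberField K'] [Algebra K K']

/-- **THE TOP OF THE NODE `NonVanC`.** -/
theorem nonVanC_of (h : ClassModelC K K') : NonVanC K K' := by
  intro ℓ hcyc hℓ hcplx Φ hΦ hconst Dt hDt hst
  obtain ⟨V, i1, i2, i3, i4, 𝒢, ℐ, S, Sinv, hM⟩ := h ℓ hcyc hℓ hcplx Φ hΦ hconst Dt hDt hst
  have hl : 0 < ℓ := hcyc.prime.pos
  obtain ⟨T, hT, hne⟩ := H616.exists_gen_twisted_trace_ne_zero616 ℓ hl 𝒢 ℐ S Sinv hM.hS hM.hS'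
    hM.hGI hM.hII hM.hdown hM.hwrap hM.hcent hM.hirr hM.h1 hM.hmul
  obtain ⟨g, Hg, hg, hHg, hd⟩ := hM.dict T hT
  refine ⟨g, Hg, hg, hHg, fun q J hq => ?_⟩
  rw [hd q J hq]
  exact hne

/-- `SpecUpCS` from the two nodes of level 4 and the closed tower T5. -/
theorem specUpCS_of_nodes (hE : ExpUpC K K') (hM : ClassModelC K K') : SpecUpCS K K' :=
  specUpCS_of hE (nonVanC_of hM)

end Top

/-! ## Appendix (v0.1, additive): the equation lemmas of the definitions are realised HERE -/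

theorem eqns_realised_nonVan736 : True := by
  have _a1 := @ClassModelC.eq_1
  have _a2 := @ClassModelC.eq_def
  have _a3 := @ClassModelC.eq_unfold
  trivial

end Fermat.Agent.LT.T7.SU736

end
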