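import Fermat.Agent.LT.T7.Level2S
import Fermat.Agent.LT.T7.H29.UpCore2
import Fermat.Agent.LT.T7.H736.ExpUp
import Fermat.Agent.LT.T7.H736.NonVan

/-!
# Row LT, tower T7, node T7.L2.2 `SpecUpC` (sub-architect helper736): THE NODES OF LEVEL 5 IN CORE
# FORM (over `K'` alone) AND THE ADAPTER TO THE NODE OF RECORD `T7.SpecUpSC`

OFF-MAIN.  Definitions, frozen Props, PROVED tops.  No hole, nothing assumed.  ADDITIVE (new names
only) to `T7/Level2S.lean` (helper797, 01962048), `T7/H29/UpCore.lean` + `UpCore2.lean` (helper29,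
c2d817fc + 5e142413: the core nodes `H29.ExpUpCoreC`, `H29.NonVanCoreC`, ruling of helper797 of
15:58Z) and to my cut `T7/H736/{SpecUp, ExpUp, NonVan}.lean` v0.1.

## What the leaf owners prove (ONE proof serves the cyclic step AND the step `F / ℚ`)

    StfUC K'        the trace identity of T5 (CLOSED: `(T5.tower_closed s l k 𝔑 τ h𝔑 hcyc).stf`)
    UpBasisUC K'    the adapted sequence with finite blocks, on `H29.UpData`     (NODE, level 5)
    ClassModelUC K' the model of the class space of `Φ`, on `H29.UpData`        (NODE, level 5)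

## What is PROVED here

    expUpCoreC_of        : StfUC K' → UpBasisUC K' → H29.ExpUpCoreC K'
    nonVanCoreC_of       : ClassModelUC K' → H29.NonVanCoreC K'
    specUpCoreSC_of_nodes: StfUC K' → UpBasisUC K' → ClassModelUC K' → H29.SpecUpCoreSC K'
    upBasisC_of_U        : UpBasisUC K' → UpBasisC K K'        (the nodes typed on `L2Data`
    classModelC_of_U     : ClassModelUC K' → ClassModelC K K'   follow from the core forms)
    stfUpC_of_U          : StfUC K' → StfUpC K K'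
    specUpSC_of736       : StableAutC K K' → SpecUpCS K K' → T7.SpecUpSC K K'
    specUpSC_of_nodes736 : StableAutC K K' → StfUC K' → UpBasisUC K' → ClassModelUC K'
                             → T7.SpecUpSC K K'                 (THE NODE OF RECORD)

`StableAutC K K'` = "a base level extended from `K` is `σ`-stable" (`IsL2Data` + `IsStable` ⇒
`BaseStable`): leaf of T1 type, owners helper930 (`RsigL2`) / helper732 / helper812.
-/

set_option autoImplicit false

open AutomorphicForm IsDedekindDomain NumberField MeasureTheory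
open scoped ComplexConjugate

noncomputable section

namespace Fermat.Agent.LT.T7.SU736

open Fermat.Agent.LT.H556 Fermat.Agent.LT.H556.A0 Fermat.Agent.LT.T7

attribute [local instance] Fermat.Agent.LT.T5.instMeasurableSpaceG

/-! ## 1. The structures, on the upstairs data -/

section CoreDefs

variable {K' : Type} [Field K'] [NumberField K']

/-- **THE ADAPTED SEQUENCE WITH BLOCKS, core form** (`IsUpBasis` on `H29.UpData`; same fields).
See the header of `T7/H736/ExpUp.lean`. -/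
structure IsUpBasisU (U : H29.UpData K') (ℓ : ℕ) (Φ : HeckeEigensystem K' ℂ) (g : G K')
    (e' : ℕ → G K' → ℂ) (I : Set ℕ) (blk : ℕ → Finset ℕ) (C : ℕ → EigData K')
    (b l y : ℕ → ℂ) (R : ℝ) (J : Finset ℕ) : Prop where
  onb : T5.IsCuspONB (U.𝔑 g) T5.trivType U.R'.r U.R'.μ U.R'.F e'
  zero_out : ∀ i, i ∉ I → ∀ (X : List (Gen K')) (k : ℤ) (m : ℕ), (∀ x ∈ X, x.Out U.S') →
    T5.diagCoeff U.s U.R'.μ U.R'.F (U.φ' g X k m) (e' i) = 0
  y_out : ∀ i, i ∉ I → y i = 0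
  mem_blk : ∀ i, i ∈ I → i ∈ blk i
  blk_sub : ∀ i, i ∈ I → ∀ j ∈ blk i, j ∈ I ∧ blk j = blk i
  block : ∀ i, i ∈ I → ∀ (X : List (Gen K')) (k : ℤ) (m : ℕ), (∀ x ∈ X, x.Out U.S') →
    ∑ j ∈ blk i, T5.diagCoeff U.s U.R'.μ U.R'.F (U.φ' g X k m) (e' j)
      = ∑ j ∈ blk i, wordEv X (C j) * y j * b j ^ k * l j ^ m
  summ : Summable fun j => ‖y j‖
  unit : ∀ j, (C j).IsUnitaryOut U.S'
  reg : ∀ j, IsRegParam R (b j) (l j)
  cls_mem : ∀ j, (C j).AgreeOut U.S' (eigOf Φ) → y j ≠ 0 → j ∈ J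
  cls_agree : ∀ j ∈ J, (C j).AgreeOut U.S' (eigOf Φ)
  cls_basis : IsClassBasisOn U.𝔑₀ U.R' ℓ U.o (eigOf Φ) e' J
  cls_trace : ∀ Hg : Finset (G K'), IsDblCosetSystem U.𝔑₀ g Hg →
    ∑ j ∈ J, y j = U.c g (eigOf Φ) * twTrace U.s U.R' Hg e' J

/-- **THE MODEL OF THE CLASS SPACE OF `Φ`, core form** (`IsClassModel` on `H29.UpData`; same
fields).  See the header of `T7/H736/NonVan.lean`. -/
structure IsClassModelU (U : H29.UpData K') (ℓ : ℕ) (Φ : HeckeEigensystem K' ℂ)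
    (V : Type) [AddCommGroup V] [Module ℂ V]
    (𝒢 : Set (Module.End ℂ V)) (ℐ : ℕ → Set (Module.End ℂ V)) (S Sinv : Module.End ℂ V) :
    Prop where
  hS : S * Sinv = 1
  hS' : Sinv * S = 1
  hGI : ∀ j < ℓ, ∀ g ∈ 𝒢, ∀ h ∈ ℐ j, g * h = h * g
  hII : ∀ i < ℓ, ∀ j < ℓ, i ≠ j → ∀ h ∈ ℐ i, ∀ h' ∈ ℐ j, h * h' = h' * h
  hdown : ∀ j, j + 1 < ℓ → ∀ h ∈ ℐ (j + 1), Sinv * h * S ∈ Algebra.adjoin ℂ (ℐ j)
  hwrap : ∀ h ∈ ℐ 0, Sinv * h * S ∈ Algebra.adjoin ℂ (ℐ (ℓ - 1))
  hcent : ∀ h ∈ ℐ 0, S ^ ℓ * h = h * S ^ ℓ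
  hirr : ∀ W : Submodule ℂ V, (∀ g ∈ 𝒢, W ≤ W.comap g) →
    (∀ j < ℓ, ∀ h ∈ ℐ j, W ≤ W.comap h) → W = ⊥ ∨ W = ⊤
  h1 : (1 : Module.End ℂ V) ∈ Submodule.span ℂ 𝒢
  hmul : ∀ x ∈ 𝒢, ∀ y ∈ 𝒢, x * y ∈ Submodule.span ℂ 𝒢
  dict : ∀ T ∈ 𝒢, ∃ (g : G K') (Hg : Finset (G K')), U.IsBad g ∧
    IsDblCosetSystem U.𝔑₀ g Hg ∧
    ∀ (q : ℕ → G K' → ℂ) (J : Finset ℕ),
      IsClassBasisOn U.𝔑₀ U.R' ℓ U.o (eigOf Φ) q J →
        twTrace U.s U.R' Hg q J = LinearMap.trace ℂ V (T * S)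

end CoreDefs

/-! ## 2. The nodes of level 5, core form -/

section CoreNodes

variable (K' : Type) [Field K'] [NumberField K']

/-- **E.1c (tower T5, CLOSED).**  The twisted trace identity of T5 at the trivial `K_∞`-type, for
every cyclic automorphism and every non-zero level: the field `stf` of
`T5.tower_closed s l k 𝔑 T5.trivType h𝔑 hcyc` (helper32). -/
def StfUC : Prop :=
  ∀ (s : T5.AdelicAut K') (l : ℕ) (k : Subfield K') (𝔑 : Ideal (𝓞 K')), 𝔑 ≠ ⊥ →
    T5.IsCyclicOfDegree s l k → T5.STFsigma s 𝔑 T5.trivType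

/-- **E.2c = NODE UP-BASIS, core form.**  The adapted sequence with blocks exists for every bad
`g` (`ℓ` prime, `ℓ = 2` allowed; `K'` totally complex; base-stable upstairs data). -/
def UpBasisUC : Prop :=
  ∀ ℓ : ℕ, ℓ.Prime → TotCplx K' →
    ∀ Φ : HeckeEigensystem K' ℂ, A0.IsCuspAdelicSph0 K' Φ →
      ∀ U : H29.UpData K', H29.IsUpData ℓ Φ U → H29.BaseStableU U → ∀ g : G K', U.IsBad g →
        ∃ (e' : ℕ → G K' → ℂ) (I : Set ℕ) (blk : ℕ → Finset ℕ) (C : ℕ → EigData K')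
          (b l y : ℕ → ℂ) (R : ℝ) (J : Finset ℕ), IsUpBasisU U ℓ Φ g e' I blk C b l y R J

/-- **N.1c = NODE CLASS-MODEL, core form.**  The class space of `Φ` at the base level has a
model as in `IsClassModelU`. -/
def ClassModelUC : Prop :=
  ∀ ℓ : ℕ, ℓ.Prime → TotCplx K' →
    ∀ Φ : HeckeEigensystem K' ℂ, A0.IsCuspAdelicSph0 K' Φ →
      ∀ U : H29.UpData K', H29.IsUpData ℓ Φ U → H29.BaseStableU U →
        ∃ (V : Type) (_ : AddCommGroup V) (_ : Module ℂ V) (_ : FiniteDimensional ℂ V)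
          (_ : Nontrivial V) (𝒢 : Set (Module.End ℂ V)) (ℐ : ℕ → Set (Module.End ℂ V))
          (S Sinv : Module.End ℂ V), IsClassModelU U ℓ Φ V 𝒢 ℐ S Sinv

end CoreNodes

/-! ## 3. The tops, core form -/

section CoreTops

variable {K' : Type} [Field K'] [NumberField K']

/-- **THE TOP OF THE CORE NODE `H29.ExpUpCoreC`.** -/
theorem expUpCoreC_of (hStf : StfUC K') (hB : UpBasisUC K') : H29.ExpUpCoreC K' := by
  classical
  intro ℓ hℓ hcplx Φ hΦ U hU hst g hg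
  obtain ⟨e', I, blk, C, b, l, y, R, J, h⟩ := hB ℓ hℓ hcplx Φ hΦ U hU hst g hg
  refine ⟨e', C, b, l, R, y, J, h.onb, h.summ, h.unit, h.reg, ?_, h.cls_mem, h.cls_agree,
    h.cls_basis, h.cls_trace⟩
  intro X hX k m _
  -- summability of the diagonal coefficients
  have hs1 : Summable fun i =>
      ‖T5.diagCoeff U.s U.R'.μ U.R'.F (U.φ' g X k m) (e' i)‖ := by
    obtain ⟨-, φ₁, φ₂, t₁, t₂, k₁, k₁', k₂, k₂', hconv⟩ := hU.ekprod_up g X k m hg hX
    rw [hconv]
    exact ((hStf U.s U.l U.k (U.𝔑 g) (hU.level_ne g hg) hU.cyc U.R'.μ U.R'.F U.R'.r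
      hU.frame'.frame hU.frame'.ray (hU.aut g hg) e' h.onb φ₁ φ₂ t₁ t₂ k₁ k₁' k₂ k₂').1).norm
  have hs2 := summable_atoms736 C b l y R h.summ h.unit h.reg X hX k m
  show (∑' i, T5.diagCoeff U.s U.R'.μ U.R'.F (U.φ' g X k m) (e' i))
    = ∑' j, wordEv X (C j) * y j * b j ^ k * l j ^ m
  refine tsum_eq_of_blocks736 _ _ hs1 hs2 I blk h.mem_blk h.blk_sub (fun i hi => ⟨?_, ?_⟩)
    (fun i hi => h.block i hi X k m hX)
  · exact h.zero_out i hi X k m hX
  · rw [h.y_out i hi, mul_zero, zero_mul, zero_mul]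

/-- **THE TOP OF THE CORE NODE `H29.NonVanCoreC`.** -/
theorem nonVanCoreC_of (h : ClassModelUC K') : H29.NonVanCoreC K' := by
  intro ℓ hℓ hcplx Φ hΦ U hU hst
  obtain ⟨V, i1, i2, i3, i4, 𝒢, ℐ, S, Sinv, hM⟩ := h ℓ hℓ hcplx Φ hΦ U hU hst
  obtain ⟨T, hT, hne⟩ := H616.exists_gen_twisted_trace_ne_zero616 ℓ hℓ.pos 𝒢 ℐ S Sinv hM.hS
    hM.hS' hM.hGI hM.hII hM.hdown hM.hwrap hM.hcent hM.hirr hM.h1 hM.hmul
  obtain ⟨g, Hg, hg, hHg, hd⟩ := hM.dict T hT
  refine ⟨g, Hg, hg, hHg, fun q J hq => ?_⟩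
  rw [hd q J hq]
  exact hne

/-- **SPEC-UP, core form, from the three nodes of level 5.** -/
theorem specUpCoreSC_of_nodes (hStf : StfUC K') (hB : UpBasisUC K') (hM : ClassModelUC K') :
    H29.SpecUpCoreSC K' :=
  H29.specUpCoreSC_of (expUpCoreC_of hStf hB) (nonVanCoreC_of hM)

end CoreTops

/-! ## 4. The cyclic step: the nodes typed on `L2Data` follow from the core forms -/

section Cyclic

variable {K K' : Type} [Field K] [NumberField K] [Field K'] [NumberField K'] [Algebra K K']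

theorem isUpBasis_of_U {Dt : L2Data K K'} {ℓ : ℕ} {Φ : HeckeEigensystem K' ℂ} {g : G K'}
    {e' : ℕ → G K' → ℂ} {I : Set ℕ} {blk : ℕ → Finset ℕ} {C : ℕ → EigData K'}
    {b l y : ℕ → ℂ} {R : ℝ} {J : Finset ℕ}
    (h : IsUpBasisU (H29.upOf Dt) ℓ Φ g e' I blk C b l y R J) :
    IsUpBasis Dt ℓ Φ g e' I blk C b l y R J where
  onb := h.onb
  zero_out := h.zero_out
  y_out := h.y_out
  mem_blk := h.mem_blk
  blk_sub := h.blk_sub
  block := h.block
  summ := h.summ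
  unit := h.unit
  reg := h.reg
  cls_mem := h.cls_mem
  cls_agree := h.cls_agree
  cls_basis := h.cls_basis
  cls_trace := h.cls_trace

theorem isClassModel_of_U {Dt : L2Data K K'} {ℓ : ℕ} {Φ : HeckeEigensystem K' ℂ}
    {V : Type} [AddCommGroup V] [Module ℂ V]
    {𝒢 : Set (Module.End ℂ V)} {ℐ : ℕ → Set (Module.End ℂ V)} {S Sinv : Module.End ℂ V}
    (h : IsClassModelU (H29.upOf Dt) ℓ Φ V 𝒢 ℐ S Sinv) :
    IsClassModel Dt ℓ Φ V 𝒢 ℐ S Sinv where
  hS := h.hS
  hS' := h.hS'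
  hGI := h.hGI
  hII := h.hII
  hdown := h.hdown
  hwrap := h.hwrap
  hcent := h.hcent
  hirr := h.hirr
  h1 := h.h1
  hmul := h.hmul
  dict := h.dict

/-- **`UpBasisC` from the core form.** -/
theorem upBasisC_of_U (hC : UpBasisUC K') : UpBasisC K K' := by
  intro ℓ hcyc _ hcplx Φ hΦ _ Dt hDt hst g hg
  obtain ⟨e', I, blk, C, b, l, y, R, J, h⟩ :=
    hC ℓ hcyc.prime (H29.totCplx_of_base hcplx) Φ hΦ (H29.upOf Dt) (H29.isUpData_upOf hDt)
      (H29.baseStableU_upOf hst) g hg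
  exact ⟨e', I, blk, C, b, l, y, R, J, isUpBasis_of_U h⟩

/-- **`ClassModelC` from the core form.** -/
theorem classModelC_of_U (hC : ClassModelUC K') : ClassModelC K K' := by
  intro ℓ hcyc _ hcplx Φ hΦ _ Dt hDt hst
  obtain ⟨V, i1, i2, i3, i4, 𝒢, ℐ, S, Sinv, hM⟩ :=
    hC ℓ hcyc.prime (H29.totCplx_of_base hcplx) Φ hΦ (H29.upOf Dt) (H29.isUpData_upOf hDt)
      (H29.baseStableU_upOf hst)
  exact ⟨V, i1, i2, i3, i4, 𝒢, ℐ, S, Sinv, isClassModel_of_U hM⟩

/-- **`StfUpC` from the core form.** -/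
theorem stfUpC_of_U (hC : StfUC K') : StfUpC K K' := by
  intro D hD
  refine hC D.s D.l D.k D.𝔑 ?_ hD.cyc
  rw [hD.level, Ne, Ideal.map_eq_bot_iff_of_injective (RingOfIntegers.algebraMap.injective K K')]
  exact hD.level_ne

/-- `SpecUpCS` (my node of level 3) from the three nodes of level 5 in core form. -/
theorem specUpCS_of_nodesU (hStf : StfUC K') (hB : UpBasisUC K') (hM : ClassModelUC K') :
    SpecUpCS K K' :=
  H29.specUpCS_of_core (specUpCoreSC_of_nodes hStf hB hM)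

end Cyclic

/-! ## 5. The adapter to the node of record `T7.SpecUpSC` (`T7/Level2S.lean`) -/

section Adapter

variable (K K' : Type) [Field K] [NumberField K] [Field K'] [NumberField K'] [Algebra K K']

/-- **LEAF STABLE-AUT** (T1 type; owners helper930 / helper732 / helper812): for the data of
level 2, a base level extended from `K` is preserved by `σ`.  Only the field `level` of
`T5.AutPreserves` is new (the others are those of `(IsL2Data.comp 1 _).aut`). -/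
def StableAutC : Prop :=
  ∀ (ℓ : ℕ) (Φ : HeckeEigensystem K' ℂ) (Dt : L2Data K K'), IsL2Data ℓ Φ Dt → Dt.IsStable →
    BaseStable Dt

variable {K K'}

/-- **THE NODE OF RECORD from my node of level 3.** -/
theorem specUpSC_of736 (hA : StableAutC K K') (h : SpecUpCS K K') : T7.SpecUpSC K K' :=
  fun ℓ hcyc hℓ hcplx Φ hΦ hconst Dt hDt hst =>
    h ℓ hcyc hℓ hcplx Φ hΦ hconst Dt hDt (hA ℓ Φ Dt hDt hst)

/-- **THE NODE OF RECORD `T7.SpecUpSC` from the leaf `StableAutC` and the three nodes of level 5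
in core form.** -/
theorem specUpSC_of_nodes736 (hA : StableAutC K K') (hStf : StfUC K') (hB : UpBasisUC K')
    (hM : ClassModelUC K') : T7.SpecUpSC K K' :=
  specUpSC_of736 hA (specUpCS_of_nodesU hStf hB hM)

end Adapter

/-! ## Appendix: the equation lemmas of the definitions of this file are realised HERE -/

theorem eqns_realised_upS736 : True := by
  have _a1 := @StfUC.eq_1
  have _a2 := @StfUC.eq_def
  have _a3 := @StfUC.eq_unfold
  have _b1 := @UpBasisUC.eq_1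
  have _b2 := @UpBasisUC.eq_def
  have _b3 := @UpBasisUC.eq_unfold
  have _c1 := @ClassModelUC.eq_1
  have _c2 := @ClassModelUC.eq_def
  have _c3 := @ClassModelUC.eq_unfold
  have _d1 := @StableAutC.eq_1
  have _d2 := @StableAutC.eq_def
  have _d3 := @StableAutC.eq_unfold
  trivial

end Fermat.Agent.LT.T7.SU736

end
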